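import Mathlib

/-!
# S37 / [RED-M] (b1) (helper6): the local factorisation behind the conservation law

`R` is a local ring whose maximal ideal is `(π, t)` (the local ring of the arithmetic surface at a
closed point of the special fibre, `π` the uniformiser of the base, `t` a lift of a uniformiser of
the special fibre).  A *rational section through the closed point* is an element `g` with
`maximalIdeal R = (π, g)`.

* `h6_section_eq` : a rational section is `g = w * t + π * c` with `w` a unit;
* `h6_cons_loc`   : `u * ∏ g i ^ n i = w * t ^ (∑ n i) + π * c` with `w` a unit: the reduction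
  modulo `π` of a product of rational sections has order `∑ n i`;
* `h6_exp_unique` : the exponent in `w * t ^ a + π * c` is well defined (`π` prime, `t ∉ (π)`);
* `h6_maximalIdeal_of_section` : if `ev : R → O'` is surjective with kernel `(g)` and the maximal
  ideal of the local ring `O'` is generated by `ev π`, then `maximalIdeal R = (π, g)`.
-/

set_option autoImplicit false
set_option linter.unusedSectionVars false
set_option linter.unnecessarySimpa false

namespace Fermat.Agent.S37x.Cons.H6

open IsLocalRing

variable {R : Type*} [CommRing R] [IsLocalRing R]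

/-- A rational section through the closed point is a unit multiple of `t` modulo `π`. -/
theorem h6_section_eq (π t g : R) (hm : maximalIdeal R = Ideal.span {π, t})
    (hg : maximalIdeal R = Ideal.span {π, g}) :
    ∃ w c : R, IsUnit w ∧ g = w * t + π * c := by
  have hgm : g ∈ Ideal.span {π, t} := by
    rw [← hm, hg]
    exact Ideal.subset_span (by simp)
  have htm : t ∈ Ideal.span {π, g} := by
    rw [← hg, hm]
    exact Ideal.subset_span (by simp)
  obtain ⟨a, b, hab⟩ := Ideal.mem_span_pair.mp hgm
  obtain ⟨a', b', hab'⟩ := Ideal.mem_span_pair.mp htm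
  by_cases hb : IsUnit b
  · exact ⟨b, a, hb, by rw [← hab]; ring⟩
  · -- then `t ∈ (π)` and `w = 1` works
    have hbm : b ∈ maximalIdeal R := (mem_maximalIdeal b).mpr hb
    have hu : IsUnit (1 - b' * b) := by
      have h1 : b' * b ∈ maximalIdeal R := Ideal.mul_mem_left _ _ hbm
      by_contra hcon
      have h2 : 1 - b' * b ∈ maximalIdeal R := (mem_maximalIdeal _).mpr hcon
      have h3 : (1 : R) ∈ maximalIdeal R := by
        have := Ideal.add_mem _ h2 h1
        simpa using this
      exact (Ideal.ne_top_iff_one _).mp (maximalIdeal.isMaximal R).ne_top h3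
    obtain ⟨v, hv⟩ := hu
    have hkey : g * (1 - b' * b) = π * (a + a' * b) := by
      have h1 : g = a * π + b * (a' * π + b' * g) := by rw [hab', hab]
      linear_combination h1
    have hgπ : g = π * ((a + a' * b) * (v⁻¹ : Rˣ)) := by
      have h2 : g * (v : R) = π * (a + a' * b) := by rw [hv]; exact hkey
      calc g = g * (v : R) * ((v⁻¹ : Rˣ) : R) := by
              rw [mul_assoc, Units.mul_inv, mul_one]
        _ = π * ((a + a' * b) * (v⁻¹ : Rˣ)) := by rw [h2]; ring
    set e := (a + a' * b) * ((v⁻¹ : Rˣ) : R) with he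
    -- `t = a' π + b' g = π (a' + b' e)`
    have htπ : t = π * (a' + b' * e) := by
      rw [← hab', hgπ]; ring
    refine ⟨1, e - (a' + b' * e), isUnit_one, ?_⟩
    rw [one_mul]
    calc g = π * e := hgπ
      _ = π * (a' + b' * e) + π * (e - (a' + b' * e)) := by ring
      _ = t + π * (e - (a' + b' * e)) := by rw [← htπ]

/-- The shape `w * t ^ a + π * c` is multiplicative. -/
theorem h6_shape_mul (π t : R) {x y : R} {a b : ℕ}
    (hx : ∃ w c : R, IsUnit w ∧ x = w * t ^ a + π * c)
    (hy : ∃ w c : R, IsUnit w ∧ y = w * t ^ b + π * c) :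
    ∃ w c : R, IsUnit w ∧ x * y = w * t ^ (a + b) + π * c := by
  obtain ⟨w, c, hw, rfl⟩ := hx
  obtain ⟨w', c', hw', rfl⟩ := hy
  refine ⟨w * w', w * t ^ a * c' + c * (w' * t ^ b) + π * c * c', hw.mul hw', ?_⟩
  rw [pow_add]
  ring

theorem h6_shape_pow (π t : R) {x : R} {a : ℕ}
    (hx : ∃ w c : R, IsUnit w ∧ x = w * t ^ a + π * c) (n : ℕ) :
    ∃ w c : R, IsUnit w ∧ x ^ n = w * t ^ (a * n) + π * c := by
  induction n with
  | zero => exact ⟨1, 0, isUnit_one, by simp⟩
  | succ n ih =>
    have := h6_shape_mul π t ih hx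
    rw [pow_succ, Nat.mul_succ]
    exact this

/-- **(b1) [CONS-LOC].** The reduction modulo `π` of a unit times a product of rational sections
through the closed point is a unit times `t ^ (∑ n i)`. -/
theorem h6_cons_loc (π t : R) (hm : maximalIdeal R = Ideal.span {π, t})
    {ι : Type*} (s : Finset ι) (g : ι → R) (n : ι → ℕ)
    (hg : ∀ i ∈ s, maximalIdeal R = Ideal.span {π, g i}) (u : R) (hu : IsUnit u) :
    ∃ w c : R, IsUnit w ∧ u * ∏ i ∈ s, g i ^ n i = w * t ^ (∑ i ∈ s, n i) + π * c := by
  classical
  induction s using Finset.induction_on with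
  | empty => exact ⟨u, 0, hu, by simp⟩
  | insert i s hi ih =>
    have ih' := ih (fun j hj => hg j (Finset.mem_insert_of_mem hj))
    obtain ⟨w, c, hw, hgi⟩ := h6_section_eq π t (g i) hm (hg i (Finset.mem_insert_self i s))
    have h1 : ∃ w c : R, IsUnit w ∧ g i = w * t ^ 1 + π * c := ⟨w, c, hw, by rw [pow_one]; exact hgi⟩
    have h2 := h6_shape_pow π t h1 (n i)
    rw [one_mul] at h2
    have h3 := h6_shape_mul π t h2 ih'
    rw [Finset.prod_insert hi, Finset.sum_insert hi]
    obtain ⟨w', c', hw', h4⟩ := h3
    refine ⟨w', c', hw', ?_⟩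
    rw [← h4]
    ring

/-- The exponent in `w * t ^ a + π * c` is well defined. -/
theorem h6_exp_unique (π t : R) (hπ : Prime π) (ht : t ∈ maximalIdeal R)
    (htπ : t ∉ Ideal.span {π}) {a b : ℕ} {w w' c c' : R} (hw : IsUnit w) (hw' : IsUnit w')
    (h : w * t ^ a + π * c = w' * t ^ b + π * c') : a = b := by
  have hprime : (Ideal.span {π} : Ideal R).IsPrime :=
    (Ideal.span_singleton_prime hπ.ne_zero).mpr hπ
  have hpow : ∀ k : ℕ, t ^ k ∉ Ideal.span {π} := fun k hk => htπ (hprime.mem_of_pow_mem k hk)
  -- symmetric argument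
  have key : ∀ {a b : ℕ} {w w' c c' : R}, IsUnit w → IsUnit w' →
      w * t ^ a + π * c = w' * t ^ b + π * c' → ¬ a < b := by
    intro a b w w' c c' hw hw' h hab
    obtain ⟨d, rfl⟩ : ∃ d, b = a + (d + 1) := ⟨b - a - 1, by omega⟩
    have h1 : t ^ a * (w - w' * t ^ (d + 1)) = π * (c' - c) := by
      have : w' * t ^ (a + (d + 1)) = t ^ a * (w' * t ^ (d + 1)) := by rw [pow_add]; ring
      linear_combination h
    have h2 : t ^ a * (w - w' * t ^ (d + 1)) ∈ Ideal.span {π} := by
      rw [h1]; exact Ideal.mul_mem_right _ _ (Ideal.mem_span_singleton_self π)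
    rcases hprime.mem_or_mem h2 with h3 | h3
    · exact hpow a h3
    · have hπm : π ∈ maximalIdeal R := by
        rw [mem_maximalIdeal]
        exact hπ.not_isUnit
      have h4 : w - w' * t ^ (d + 1) ∈ maximalIdeal R := by
        obtain ⟨z, hz⟩ := Ideal.mem_span_singleton.mp h3
        rw [hz]
        exact Ideal.mul_mem_right _ _ hπm
      have h5 : w' * t ^ (d + 1) ∈ maximalIdeal R := by
        rw [pow_succ]
        exact Ideal.mul_mem_left _ _ (Ideal.mul_mem_left _ _ ht)
      have h6 : w ∈ maximalIdeal R := by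
        have := Ideal.add_mem _ h4 h5
        simpa using this
      exact (mem_maximalIdeal w).mp h6 hw
  rcases lt_trichotomy a b with hlt | heq | hgt
  · exact (key hw hw' h hlt).elim
  · exact heq
  · exact (key hw' hw h.symm hgt).elim

/-- **Rational sections.** If `ev : R → O'` is a surjective ring homomorphism onto a local ring
with kernel `(g)` and the maximal ideal of `O'` is generated by `ev π`, then the maximal ideal of
`R` is `(π, g)`. -/
theorem h6_maximalIdeal_of_section {O' : Type*} [CommRing O'] [IsLocalRing O'] (ev : R →+* O')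
    (hev : Function.Surjective ev) (π g : R) (hker : ∀ x, ev x = 0 → g ∣ x) (hg0 : ev g = 0)
    (hO : maximalIdeal O' = Ideal.span {ev π}) :
    maximalIdeal R = Ideal.span {π, g} := by
  have hπO : ev π ∈ maximalIdeal O' := by
    rw [hO]; exact Ideal.mem_span_singleton_self _
  have hnonunit : ∀ x : R, IsUnit x → IsUnit (ev x) := fun x hx => hx.map ev
  apply le_antisymm
  · intro x hx
    have hx' : ev x ∈ maximalIdeal O' := by
      rw [mem_maximalIdeal]
      intro hux
      -- `ev x` a unit: lift the inverse
      obtain ⟨z, hz⟩ := hev ((hux.unit⁻¹ : O'ˣ) : O')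
      have h1 : ev (x * z - 1) = 0 := by
        rw [map_sub, map_mul, hz, map_one, IsUnit.mul_val_inv, sub_self]
      obtain ⟨d, hd⟩ := hker _ h1
      have hgm : g ∈ maximalIdeal R := by
        rw [mem_maximalIdeal]
        intro hgu
        have := hnonunit g hgu
        rw [hg0] at this
        exact not_isUnit_zero this
      have h2 : x * z ∈ maximalIdeal R := Ideal.mul_mem_right _ _ hx
      have h3 : (1 : R) ∈ maximalIdeal R := by
        have h4 : x * z - 1 ∈ maximalIdeal R := by rw [hd]; exact Ideal.mul_mem_right _ _ hgm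
        have := Ideal.sub_mem _ h2 h4
        simpa using this
      exact (Ideal.ne_top_iff_one _).mp (maximalIdeal.isMaximal R).ne_top h3
    rw [hO] at hx'
    obtain ⟨z', hz'⟩ := Ideal.mem_span_singleton.mp hx'
    obtain ⟨z, rfl⟩ := hev z'
    have h1 : ev (x - π * z) = 0 := by rw [map_sub, map_mul, hz', sub_self]
    obtain ⟨d, hd⟩ := hker _ h1
    rw [Ideal.mem_span_pair]
    exact ⟨z, d, by rw [mul_comm z π, mul_comm d g, ← hd]; ring⟩
  · rw [Ideal.span_le]
    rintro x (rfl | rfl)
    · rw [SetLike.mem_coe, mem_maximalIdeal]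
      intro hu
      exact (mem_maximalIdeal _).mp hπO (hnonunit _ hu)
    · rw [SetLike.mem_coe, mem_maximalIdeal]
      intro hu
      have := hnonunit _ hu
      rw [hg0] at this
      exact not_isUnit_zero this

end Fermat.Agent.S37x.Cons.H6
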