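import Mathlib
import Fermat.Prelude.Def_AlgebraicCurve_DivisorClassGroup
import Fermat.Agent.S24.H15_Kaehler

/-!
# S37 / [RED-M] (b0) (helper6): rational places under an algebraic constant field extension

Setting: fields `k₁ ⊆ K` (`K` algebraic over the perfect field `k₁`), function fields `F₁ / k₁`
and `F / K` with a ring homomorphism `ι : F₁ → F` compatible with the constants such that `F` is
generated by `K` and `ι F₁`; a place `v` of `F₁ / k₁` and a place `P` of `F / K` above `v`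
(`ι f ∈ O_P ↔ f ∈ O_v`) such that the values at `P` of the elements of `O_v` lie in `K`
(automatic if `K` is algebraically closed).  Then

* `h6_rat_structure` : every `x ≠ 0` of `F` is `(ι t) ^ n * a / b` with `a, b ∈ K[ι O_v]` units
  at `P` (`t` a uniformiser of `v`): `O_P` is the localisation of `K[ι O_v]`;
* `h6_rat_ord`       : `P.ord (ι f) = v.ord f` (no ramification);
* `h6_rat_residue`   : `P` is `K`-rational (`ResidueTrivial`);
* `h6_rat_unique`    : `P` is the only place of `F / K` above `v` with these values.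

No completions, no tensor products, no "constant field extensions are unramified".
-/

set_option autoImplicit false
set_option linter.unusedSectionVars false
set_option linter.unusedVariables false
set_option linter.unnecessarySimpa false
set_option maxHeartbeats 400000

noncomputable section

namespace Fermat.Agent.S37x.Cons.H6

open AlgebraicCurve IsLocalRing Polynomial

section Val

variable {K F : Type*} [Field K] [Field F] [Algebra K F] (P : Place K F)

/-- The valuation of the place. -/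
abbrev h6val : Valuation F P.toValuationSubring.ValueGroup := P.toValuationSubring.valuation

theorem h6_val_le_one_iff {x : F} : h6val P x ≤ 1 ↔ x ∈ P.toValuationSubring :=
  P.toValuationSubring.valuation_le_one_iff x

theorem h6_val_const_le (c : K) : h6val P (algebraMap K F c) ≤ 1 :=
  (h6_val_le_one_iff P).mpr (P.algebraMap_mem' c)

theorem h6_val_const_eq_one {c : K} (hc : c ≠ 0) : h6val P (algebraMap K F c) = 1 := by
  apply le_antisymm (h6_val_const_le P c)
  have h1 : h6val P (algebraMap K F c⁻¹) ≤ 1 := h6_val_const_le P c⁻¹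
  have h2 : h6val P (algebraMap K F c) * h6val P (algebraMap K F c⁻¹) = 1 := by
    rw [← map_mul, ← map_mul, mul_inv_cancel₀ hc, map_one, map_one]
  by_contra hlt
  rw [not_le] at hlt
  have h3 : h6val P (algebraMap K F c) * h6val P (algebraMap K F c⁻¹) < 1 := by
    calc h6val P (algebraMap K F c) * h6val P (algebraMap K F c⁻¹)
        ≤ h6val P (algebraMap K F c) * 1 := mul_le_mul' le_rfl h1
      _ = h6val P (algebraMap K F c) := mul_one _
      _ < 1 := hlt
  rw [h2] at h3
  exact lt_irrefl _ h3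

theorem h6_val_lt_mul_le {x y : F} (hx : h6val P x < 1) (hy : h6val P y ≤ 1) :
    h6val P (x * y) < 1 := by
  rw [map_mul]
  calc h6val P x * h6val P y ≤ h6val P x * 1 := mul_le_mul' le_rfl hy
    _ = h6val P x := mul_one _
    _ < 1 := hx

theorem h6_val_sub_lt {x y : F} (hx : h6val P x < 1) (hy : h6val P y < 1) :
    h6val P (x - y) < 1 := by
  rw [sub_eq_add_neg]
  exact Valuation.map_add_lt _ hx (by rwa [Valuation.map_neg])

theorem h6_val_add_lt {x y : F} (hx : h6val P x < 1) (hy : h6val P y < 1) :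
    h6val P (x + y) < 1 :=
  Valuation.map_add_lt _ hx hy

/-- The value at `P` is unique. -/
theorem h6_value_unique {x : F} {c c' : K} (h : h6val P (x - algebraMap K F c) < 1)
    (h' : h6val P (x - algebraMap K F c') < 1) : c = c' := by
  by_contra hne
  have h1 : h6val P (algebraMap K F (c' - c)) < 1 := by
    have : algebraMap K F (c' - c) = (x - algebraMap K F c) - (x - algebraMap K F c') := by
      rw [map_sub]; ring
    rw [this]
    exact h6_val_sub_lt P h h'
  rw [h6_val_const_eq_one P (sub_ne_zero.mpr (Ne.symm hne))] at h1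
  exact lt_irrefl _ h1

/-- A unit of `O_P` is an element with a non-zero value. -/
theorem h6_val_eq_one_of_value {x : F} {c : K} (h : h6val P (x - algebraMap K F c) < 1)
    (hc : c ≠ 0) : h6val P x = 1 := by
  have h1 : x = algebraMap K F c + (x - algebraMap K F c) := by ring
  have h2 := Valuation.map_add_eq_of_lt_left (h6val P) (x := algebraMap K F c)
    (y := x - algebraMap K F c) (by rw [h6_val_const_eq_one P hc]; exact h)
  rw [← h1] at h2
  rw [h2, h6_val_const_eq_one P hc]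

theorem h6_value_ne_zero {x : F} {c : K} (h : h6val P (x - algebraMap K F c) < 1)
    (hx : h6val P x = 1) : c ≠ 0 := by
  rintro rfl
  rw [map_zero, sub_zero, hx] at h
  exact lt_irrefl _ h

theorem h6_mem_of_value {x : F} {c : K} (h : h6val P (x - algebraMap K F c) < 1) :
    h6val P x ≤ 1 := by
  have h1 : x = (x - algebraMap K F c) + algebraMap K F c := by ring
  rw [h1]
  exact (Valuation.map_add _ _ _).trans (max_le h.le (h6_val_const_le P c))

/-- Polynomial congruence: if `x` has the value `c` at `P` then `q(x)` has the value `q(c)`. -/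
theorem h6_value_aeval {x : F} {c : K} (h : h6val P (x - algebraMap K F c) < 1) (q : K[X]) :
    h6val P (aeval x q - algebraMap K F (q.eval c)) < 1 := by
  obtain ⟨q', hq'⟩ := X_sub_C_dvd_sub_C_eval (a := c) (p := q)
  have h1 : aeval x q - algebraMap K F (q.eval c) = (x - algebraMap K F c) * aeval x q' := by
    have := congrArg (aeval x) hq'
    simpa [map_sub, map_mul] using this
  rw [h1]
  apply h6_val_lt_mul_le P h
  -- `q'(x) ∈ O_P`
  have hx : x ∈ P.toValuationSubring := (h6_val_le_one_iff P).mp (h6_mem_of_value P h)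
  rw [h6_val_le_one_iff, aeval_eq_sum_range]
  refine sum_mem fun i _ => ?_
  rw [Algebra.smul_def]
  exact mul_mem (P.algebraMap_mem' _) (pow_mem hx i)

theorem h6_ord_eq_zero_of_val {x : F} (hx : h6val P x = 1) : P.ord x = 0 := by
  have hx0 : x ≠ 0 := by
    rintro rfl
    rw [map_zero] at hx
    exact zero_ne_one hx
  have h1 : 0 ≤ P.ord x :=
    (Fermat.Agent.S24.RH.ord_nonneg_iff P).mpr ((h6_val_le_one_iff P).mp hx.le)
  have h2 : 0 ≤ P.ord x⁻¹ := by
    apply (Fermat.Agent.S24.RH.ord_nonneg_iff P).mpr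
    rw [← h6_val_le_one_iff, map_inv₀, hx, inv_one]
  rw [P.ord_inv] at h2
  omega

theorem h6_ord_pos_of_val {x : F} (hx : h6val P x < 1) (hx0 : x ≠ 0) : 0 < P.ord x := by
  have hmem : x ∈ P.toValuationSubring := (h6_val_le_one_iff P).mp hx.le
  have hm : (⟨x, hmem⟩ : P.toValuationSubring) ∈ maximalIdeal P.toValuationSubring :=
    (P.toValuationSubring.valuation_lt_one_iff ⟨x, hmem⟩).mpr hx
  have hne : (⟨x, hmem⟩ : P.toValuationSubring) ≠ 0 := by
    intro h
    apply hx0
    have h' := congrArg Subtype.val h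
    simpa using h'
  have := Fermat.Agent.S24.RH.ord_pos_of_mem_maximalIdeal P hm hne
  simpa using this

theorem h6_val_lt_of_ord_pos {x : F} (hx : 0 < P.ord x) : h6val P x < 1 := by
  have hmem : x ∈ P.toValuationSubring := (Fermat.Agent.S24.RH.ord_nonneg_iff P).mp hx.le
  rcases P.toValuationSubring.valuation_lt_one_or_eq_one ⟨x, hmem⟩ with h | h
  · exact h
  · have := h6_ord_eq_zero_of_val P h
    simp only at this
    omega

end Val

section Main

variable {k₁ K F₁ F : Type*} [Field k₁] [Field K] [Field F₁] [Field F]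
  [Algebra k₁ K] [Algebra k₁ F₁] [Algebra K F]

/-- The subalgebra `K[ι O_v]` of `F`. -/
def h6S (ι : F₁ →+* F) (v : Place k₁ F₁) : Subalgebra K F :=
  Algebra.adjoin K (ι '' (v.toValuationSubring : Set F₁))

/-- The hypotheses: `P` lies above `v` and the values of `O_v` at `P` lie in `K`. -/
structure H6Above (ι : F₁ →+* F) (v : Place k₁ F₁) (P : Place K F) : Prop where
  compat : ∀ c : k₁, ι (algebraMap k₁ F₁ c) = algebraMap K F (algebraMap k₁ K c)
  mem_iff : ∀ f : F₁, ι f ∈ P.toValuationSubring ↔ f ∈ v.toValuationSubring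
  value : ∀ f : F₁, f ∈ v.toValuationSubring →
    ∃ c : K, h6val P (ι f - algebraMap K F c) < 1

variable {ι : F₁ →+* F} {v : Place k₁ F₁} {P : Place K F}

theorem h6S_le (h : H6Above ι v P) {s : F} (hs : s ∈ h6S (K := K) ι v) :
    s ∈ P.toValuationSubring := by
  induction hs using Algebra.adjoin_induction with
  | mem x hx =>
    obtain ⟨f, hf, rfl⟩ := hx
    exact (h.mem_iff f).mpr hf
  | algebraMap r => exact P.algebraMap_mem' r
  | add x y _ _ hx hy => exact add_mem hx hy
  | mul x y _ _ hx hy => exact mul_mem hx hy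

theorem h6S_mem_of_mem {f : F₁} (hf : f ∈ v.toValuationSubring) :
    ι f ∈ h6S (K := K) ι v :=
  Algebra.subset_adjoin ⟨f, hf, rfl⟩

theorem h6S_aeval_mem {s : F} (hs : s ∈ h6S (K := K) ι v) (q : K[X]) :
    aeval s q ∈ h6S (K := K) ι v := by
  rw [aeval_eq_sum_range]
  refine sum_mem fun i _ => ?_
  exact Subalgebra.smul_mem _ (pow_mem hs i) _

/-- The image of a non-unit of `O_v` is a non-unit of `O_P`. -/
theorem h6_val_lt_of_not_inv_mem (h : H6Above ι v P) {f : F₁} (hf : f⁻¹ ∉ v.toValuationSubring) :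
    h6val P (ι f) < 1 := by
  have h1 : ι f⁻¹ ∉ P.toValuationSubring := fun hmem => hf ((h.mem_iff _).mp hmem)
  rw [← h6_val_le_one_iff, not_le, map_inv₀, map_inv₀] at h1
  have h0 : h6val P (ι f) ≠ 0 := by
    intro h0
    rw [h0, inv_zero] at h1
    exact not_lt.mpr zero_le_one h1
  by_contra hge
  rw [not_lt] at hge
  have : (h6val P (ι f))⁻¹ ≤ 1 := by
    rw [inv_le_one₀ (zero_lt_iff.mpr h0)]
    exact hge
  exact not_lt.mpr this h1

/-- The image of a unit of `O_v` is a unit of `O_P`. -/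
theorem h6_val_eq_one_of_unit (h : H6Above ι v P) {f : F₁} (hf : f ∈ v.toValuationSubring)
    (hf' : f⁻¹ ∈ v.toValuationSubring) (hf0 : f ≠ 0) : h6val P (ι f) = 1 := by
  have h1 : h6val P (ι f) ≤ 1 := (h6_val_le_one_iff P).mpr ((h.mem_iff f).mpr hf)
  have h2 : h6val P (ι f⁻¹) ≤ 1 := (h6_val_le_one_iff P).mpr ((h.mem_iff _).mpr hf')
  rw [map_inv₀, map_inv₀] at h2
  have h0 : h6val P (ι f) ≠ 0 := by
    rw [Valuation.ne_zero_iff]
    exact (map_ne_zero ι).mpr hf0
  apply le_antisymm h1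
  rwa [inv_le_one₀ (zero_lt_iff.mpr h0)] at h2


/-! ### The key property of the elements of `K[ι O_v]` -/

/-- `s` has a value `c ∈ K` at `P`, and `s - c` is divisible by `t` after multiplication by an
element of `K[ι O_v]` which is a unit at `P`. -/
def H6Good (ι : F₁ →+* F) (v : Place k₁ F₁) (P : Place K F) (t s : F) : Prop :=
  ∃ (c : K) (σ w : F), σ ∈ h6S (K := K) ι v ∧ w ∈ h6S (K := K) ι v ∧ h6val P σ = 1 ∧
    h6val P (s - algebraMap K F c) < 1 ∧ σ * (s - algebraMap K F c) = t * w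

theorem h6_coe_irreducible_inv_not_mem (π : v.toValuationSubring) (hπ : Irreducible π) :
    ((π : F₁))⁻¹ ∉ v.toValuationSubring := by
  intro hmem
  apply hπ.not_isUnit
  have hπ0 : (π : F₁) ≠ 0 := Fermat.Agent.S24.RH.coe_irreducible_ne_zero v hπ
  refine IsUnit.of_mul_eq_one (⟨(π : F₁)⁻¹, hmem⟩ : v.toValuationSubring) ?_
  apply Subtype.ext
  show (π : F₁) * (π : F₁)⁻¹ = 1
  exact mul_inv_cancel₀ hπ0

theorem h6_good_gen [PerfectField k₁] [Algebra.IsAlgebraic k₁ K] (h : H6Above ι v P)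
    (π : v.toValuationSubring) (hπ : Irreducible π) (u : F₁) (hu : u ∈ v.toValuationSubring) :
    H6Good ι v P (ι (π : F₁)) (ι u) := by
  obtain ⟨c, hc⟩ := h.value u hu
  have hint : IsIntegral k₁ c := Algebra.IsIntegral.isIntegral c
  set m := minpoly k₁ c with hm
  have hm_irr : Irreducible m := minpoly.irreducible hint
  have hm_sep : m.Separable := PerfectField.separable_of_irreducible hm_irr
  set mK := m.map (algebraMap k₁ K) with hmK
  have hroot : mK.eval c = 0 := by
    rw [hmK, eval_map, ← aeval_def, hm, minpoly.aeval]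
  obtain ⟨m₁, hm₁⟩ : X - C c ∣ mK := dvd_iff_isRoot.mpr hroot
  have hm₁c : m₁.eval c ≠ 0 := by
    intro h0
    obtain ⟨m₂, hm₂⟩ : X - C c ∣ m₁ := dvd_iff_isRoot.mpr h0
    have hsq : (X - C c) * (X - C c) ∣ mK := ⟨m₂, by rw [hm₁, hm₂]; ring⟩
    have := (hm_sep.map (f := algebraMap k₁ K)).squarefree (X - C c) hsq
    exact not_isUnit_X_sub_C c this
  have hy : aeval u m ∈ v.toValuationSubring := by
    rw [aeval_eq_sum_range]
    refine sum_mem fun i _ => ?_
    rw [Algebra.smul_def]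
    exact mul_mem (v.algebraMap_mem' _) (pow_mem hu i)
  have hcomp : (algebraMap K F).comp (algebraMap k₁ K) = ι.comp (algebraMap k₁ F₁) :=
    RingHom.ext fun a => (h.compat a).symm
  have hιy : ι (aeval u m) = aeval (ι u) mK := map_aeval_eq_aeval_map hcomp m u
  have hval_y : h6val P (ι (aeval u m)) < 1 := by
    rw [hιy]
    have := h6_value_aeval P hc mK
    rwa [hroot, map_zero, sub_zero] at this
  have hy_nonunit : (⟨aeval u m, hy⟩ : v.toValuationSubring) ∈
      maximalIdeal v.toValuationSubring := by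
    rw [mem_maximalIdeal, mem_nonunits_iff]
    intro hunit
    obtain ⟨z, hz⟩ := hunit.exists_right_inv
    have hz' : aeval u m * (z : F₁) = 1 := by
      have := congrArg Subtype.val hz
      simpa using this
    have h1 : ι (aeval u m) * ι z = 1 := by rw [← map_mul, hz', map_one]
    have h2 : h6val P (ι z) ≤ 1 := (h6_val_le_one_iff P).mpr ((h.mem_iff _).mpr z.2)
    have h3 := h6_val_lt_mul_le P hval_y h2
    rw [h1, map_one] at h3
    exact lt_irrefl _ h3
  rw [hπ.maximalIdeal_eq, Ideal.mem_span_singleton'] at hy_nonunit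
  obtain ⟨w₀, hw₀⟩ := hy_nonunit
  have hw₀' : (w₀ : F₁) * (π : F₁) = aeval u m := by
    have := congrArg Subtype.val hw₀
    simpa using this
  refine ⟨c, aeval (ι u) m₁, ι w₀, h6S_aeval_mem (h6S_mem_of_mem hu) m₁,
    h6S_mem_of_mem w₀.2, h6_val_eq_one_of_value P (h6_value_aeval P hc m₁) hm₁c, hc, ?_⟩
  have h4 : aeval (ι u) mK = (ι u - algebraMap K F c) * aeval (ι u) m₁ := by
    rw [hm₁]
    simp
  calc aeval (ι u) m₁ * (ι u - algebraMap K F c)
      = aeval (ι u) mK := by rw [h4]; ring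
    _ = ι (aeval u m) := hιy.symm
    _ = ι ((w₀ : F₁) * (π : F₁)) := by rw [hw₀']
    _ = ι (π : F₁) * ι (w₀ : F₁) := by rw [map_mul]; ring

theorem h6_good [PerfectField k₁] [Algebra.IsAlgebraic k₁ K] (h : H6Above ι v P)
    (π : v.toValuationSubring) (hπ : Irreducible π) {s : F} (hs : s ∈ h6S (K := K) ι v) :
    H6Good ι v P (ι (π : F₁)) s := by
  induction hs using Algebra.adjoin_induction with
  | mem x hx =>
    obtain ⟨f, hf, rfl⟩ := hx
    exact h6_good_gen h π hπ f hf
  | algebraMap r =>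
    refine ⟨r, 1, 0, one_mem _, zero_mem _, map_one _, ?_, by simp⟩
    rw [sub_self, map_zero]
    exact zero_lt_one
  | add x y hx hy ihx ihy =>
    obtain ⟨c₁, σ₁, w₁, hσ₁, hw₁, hv₁, hc₁, e₁⟩ := ihx
    obtain ⟨c₂, σ₂, w₂, hσ₂, hw₂, hv₂, hc₂, e₂⟩ := ihy
    refine ⟨c₁ + c₂, σ₁ * σ₂, σ₂ * w₁ + σ₁ * w₂, mul_mem hσ₁ hσ₂,
      add_mem (mul_mem hσ₂ hw₁) (mul_mem hσ₁ hw₂), by rw [map_mul, hv₁, hv₂, mul_one], ?_, ?_⟩
    · have : x + y - algebraMap K F (c₁ + c₂) =
          (x - algebraMap K F c₁) + (y - algebraMap K F c₂) := by rw [map_add]; ring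
      rw [this]
      exact h6_val_add_lt P hc₁ hc₂
    · rw [map_add]
      linear_combination σ₂ * e₁ + σ₁ * e₂
  | mul x y hx hy ihx ihy =>
    obtain ⟨c₁, σ₁, w₁, hσ₁, hw₁, hv₁, hc₁, e₁⟩ := ihx
    obtain ⟨c₂, σ₂, w₂, hσ₂, hw₂, hv₂, hc₂, e₂⟩ := ihy
    refine ⟨c₁ * c₂, σ₁ * σ₂, σ₂ * y * w₁ + σ₁ * algebraMap K F c₁ * w₂, mul_mem hσ₁ hσ₂,
      add_mem (mul_mem (mul_mem hσ₂ hy) hw₁)
        (mul_mem (mul_mem hσ₁ (Subalgebra.algebraMap_mem _ c₁)) hw₂),
      by rw [map_mul, hv₁, hv₂, mul_one], ?_, ?_⟩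
    · have : x * y - algebraMap K F (c₁ * c₂) =
          (x - algebraMap K F c₁) * y + (y - algebraMap K F c₂) * algebraMap K F c₁ := by
        rw [map_mul]; ring
      rw [this]
      exact h6_val_add_lt P
        (h6_val_lt_mul_le P hc₁ ((h6_val_le_one_iff P).mpr (h6S_le h hy)))
        (h6_val_lt_mul_le P hc₂ (h6_val_const_le P c₁))
    · rw [map_mul]
      linear_combination σ₂ * y * e₁ + σ₁ * algebraMap K F c₁ * e₂


/-! ### Factorisation in `K[ι O_v]` and the structure of `F` -/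

theorem h6_val_iota_unif_lt (h : H6Above ι v P) (π : v.toValuationSubring) (hπ : Irreducible π) :
    h6val P (ι (π : F₁)) < 1 :=
  h6_val_lt_of_not_inv_mem h (h6_coe_irreducible_inv_not_mem π hπ)

theorem h6_iota_unif_ne_zero (π : v.toValuationSubring) (hπ : Irreducible π) :
    ι (π : F₁) ≠ 0 :=
  (map_ne_zero ι).mpr (Fermat.Agent.S24.RH.coe_irreducible_ne_zero v hπ)

theorem h6_ord_iota_unif_pos (h : H6Above ι v P) (π : v.toValuationSubring)
    (hπ : Irreducible π) : 0 < P.ord (ι (π : F₁)) :=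
  h6_ord_pos_of_val P (h6_val_iota_unif_lt h π hπ) (h6_iota_unif_ne_zero π hπ)

theorem h6_ne_zero_of_val_eq_one {x : F} (hx : h6val P x = 1) : x ≠ 0 := by
  rintro rfl
  rw [map_zero] at hx
  exact zero_ne_one hx

theorem h6_factor [PerfectField k₁] [Algebra.IsAlgebraic k₁ K] (h : H6Above ι v P)
    (π : v.toValuationSubring) (hπ : Irreducible π) :
    ∀ (n : ℕ) (s : F), s ∈ h6S (K := K) ι v → s ≠ 0 → P.ord s ≤ n →
      ∃ (m : ℕ) (a σ : F), a ∈ h6S (K := K) ι v ∧ σ ∈ h6S (K := K) ι v ∧ h6val P a = 1 ∧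
        h6val P σ = 1 ∧ σ * s = ι (π : F₁) ^ m * a := by
  intro n
  induction n with
  | zero =>
    intro s hs hs0 hord
    obtain ⟨c, σ₁, w, hσ₁, hw, hv₁, hc, e⟩ := h6_good h π hπ hs
    by_cases hc0 : c = 0
    · exfalso
      subst hc0
      rw [map_zero, sub_zero] at hc e
      have := h6_ord_pos_of_val P hc hs0
      omega
    · exact ⟨0, s, 1, hs, one_mem _, h6_val_eq_one_of_value P hc hc0, map_one _, by simp⟩
  | succ n ih =>
    intro s hs hs0 hord
    obtain ⟨c, σ₁, w, hσ₁, hw, hv₁, hc, e⟩ := h6_good h π hπ hs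
    by_cases hc0 : c = 0
    · subst hc0
      rw [map_zero, sub_zero] at hc e
      have hσ₁0 : σ₁ ≠ 0 := h6_ne_zero_of_val_eq_one hv₁
      have hπ0 := h6_iota_unif_ne_zero (ι := ι) π hπ
      have hw0 : w ≠ 0 := by
        rintro rfl
        rw [mul_zero] at e
        exact mul_ne_zero hσ₁0 hs0 e
      have hordeq : P.ord s = P.ord (ι (π : F₁)) + P.ord w := by
        have h1 := congrArg P.ord e
        rw [P.ord_mul hσ₁0 hs0, P.ord_mul hπ0 hw0, h6_ord_eq_zero_of_val P hv₁, zero_add] at h1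
        exact h1
      have hpos := h6_ord_iota_unif_pos h π hπ
      obtain ⟨m, a, σ₂, ha, hσ₂, hva, hv₂, e₂⟩ := ih w hw hw0 (by omega)
      refine ⟨m + 1, a, σ₁ * σ₂, ha, mul_mem hσ₁ hσ₂, hva, by rw [map_mul, hv₁, hv₂, mul_one], ?_⟩
      rw [pow_succ]
      linear_combination σ₂ * e + ι (π : F₁) * e₂
    · exact ⟨0, s, 1, hs, one_mem _, h6_val_eq_one_of_value P hc hc0, map_one _, by simp⟩

/-- Every element of `F` is a quotient of elements of `K[ι O_v]`. -/
theorem h6_exists_frac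
    (hgen : Subfield.closure (Set.range (algebraMap K F) ∪ Set.range ι) = ⊤) (x : F) :
    ∃ s s' : F, s ∈ h6S (K := K) ι v ∧ s' ∈ h6S (K := K) ι v ∧ s' ≠ 0 ∧ x * s' = s := by
  have hx : x ∈ Subfield.closure (Set.range (algebraMap K F) ∪ Set.range ι) := by
    rw [hgen]; exact Subfield.mem_top x
  induction hx using Subfield.closure_induction with
  | mem x hx =>
    rcases hx with ⟨c, rfl⟩ | ⟨f, rfl⟩
    · exact ⟨algebraMap K F c, 1, Subalgebra.algebraMap_mem _ c, one_mem _, one_ne_zero,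
        mul_one _⟩
    · rcases v.toValuationSubring.mem_or_inv_mem f with hf | hf
      · exact ⟨ι f, 1, h6S_mem_of_mem hf, one_mem _, one_ne_zero, mul_one _⟩
      · by_cases hf0 : f = 0
        · subst hf0
          exact ⟨0, 1, zero_mem _, one_mem _, one_ne_zero, by simp⟩
        · refine ⟨1, ι f⁻¹, one_mem _, h6S_mem_of_mem hf,
            (map_ne_zero ι).mpr (inv_ne_zero hf0), ?_⟩
          rw [← map_mul, mul_inv_cancel₀ hf0, map_one]
  | one => exact ⟨1, 1, one_mem _, one_mem _, one_ne_zero, mul_one _⟩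
  | add x y _ _ ihx ihy =>
    obtain ⟨s, s', hs, hs', hs'0, e⟩ := ihx
    obtain ⟨r, r', hr, hr', hr'0, e'⟩ := ihy
    refine ⟨s * r' + r * s', s' * r', add_mem (mul_mem hs hr') (mul_mem hr hs'),
      mul_mem hs' hr', mul_ne_zero hs'0 hr'0, ?_⟩
    linear_combination r' * e + s' * e'
  | neg x _ ihx =>
    obtain ⟨s, s', hs, hs', hs'0, e⟩ := ihx
    exact ⟨-s, s', neg_mem hs, hs', hs'0, by rw [neg_mul, e]⟩
  | inv x _ ihx =>
    obtain ⟨s, s', hs, hs', hs'0, e⟩ := ihx
    by_cases hs0 : s = 0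
    · subst hs0
      have hx0 : x = 0 := by
        rcases mul_eq_zero.mp e with h | h
        · exact h
        · exact (hs'0 h).elim
      subst hx0
      exact ⟨0, 1, zero_mem _, one_mem _, one_ne_zero, by simp⟩
    · refine ⟨s', s, hs', hs, hs0, ?_⟩
      have hx0 : x ≠ 0 := by
        rintro rfl
        rw [zero_mul] at e
        exact hs0 e.symm
      rw [← e]
      field_simp
  | mul x y _ _ ihx ihy =>
    obtain ⟨s, s', hs, hs', hs'0, e⟩ := ihx
    obtain ⟨r, r', hr, hr', hr'0, e'⟩ := ihy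
    refine ⟨s * r, s' * r', mul_mem hs hr, mul_mem hs' hr', mul_ne_zero hs'0 hr'0, ?_⟩
    rw [← e, ← e']
    ring

/-- **Structure of `F`.** Every non-zero `x ∈ F` is `(ι t) ^ n * a / b` with `a, b ∈ K[ι O_v]`
units at `P`. -/
theorem h6_rat_structure [PerfectField k₁] [Algebra.IsAlgebraic k₁ K] (h : H6Above ι v P)
    (hgen : Subfield.closure (Set.range (algebraMap K F) ∪ Set.range ι) = ⊤)
    (π : v.toValuationSubring) (hπ : Irreducible π) (x : F) (hx : x ≠ 0) :
    ∃ (n : ℤ) (a b : F), a ∈ h6S (K := K) ι v ∧ b ∈ h6S (K := K) ι v ∧ h6val P a = 1 ∧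
      h6val P b = 1 ∧ x * b = ι (π : F₁) ^ n * a := by
  obtain ⟨s, s', hs, hs', hs'0, e⟩ := h6_exists_frac (v := v) hgen x
  have hs0 : s ≠ 0 := by
    rw [← e]
    exact mul_ne_zero hx hs'0
  have hS : ∀ r : F, r ∈ h6S (K := K) ι v → r ≠ 0 → ∃ (m : ℕ) (a σ : F),
      a ∈ h6S (K := K) ι v ∧ σ ∈ h6S (K := K) ι v ∧ h6val P a = 1 ∧
        h6val P σ = 1 ∧ σ * r = ι (π : F₁) ^ m * a := by
    intro r hr hr0
    have hnn : 0 ≤ P.ord r := (Fermat.Agent.S24.RH.ord_nonneg_iff P).mpr (h6S_le h hr)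
    exact h6_factor h π hπ (P.ord r).toNat r hr hr0 (by omega)
  obtain ⟨m, a, σ, ha, hσ, hva, hvσ, e₁⟩ := hS s hs hs0
  obtain ⟨m', a', σ', ha', hσ', hva', hvσ', e₂⟩ := hS s' hs' hs'0
  have hπ0 := h6_iota_unif_ne_zero (ι := ι) π hπ
  refine ⟨(m : ℤ) - m', a * σ', a' * σ, mul_mem ha hσ', mul_mem ha' hσ,
    by rw [map_mul, hva, hvσ', mul_one], by rw [map_mul, hva', hvσ, mul_one], ?_⟩
  rw [zpow_sub₀ hπ0, zpow_natCast, zpow_natCast]
  have hpow : ι (π : F₁) ^ m' ≠ 0 := pow_ne_zero _ hπ0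
  field_simp
  -- goal: x * (a' * σ) * π ^ m' = π ^ m * (a * σ')  (up to normalisation)
  have hσ'0 : σ' ≠ 0 := h6_ne_zero_of_val_eq_one hvσ'
  have key : x * (a' * σ) * ι (π : F₁) ^ m' = ι (π : F₁) ^ m * (a * σ') := by
    have h1 : x * (σ' * s') * σ = (σ * s) * σ' := by rw [← e]; ring
    rw [e₁, e₂] at h1
    linear_combination h1
  linear_combination key


/-! ### Consequences: no ramification, rationality, uniqueness -/

theorem h6_exists_ord_eq_one (P : Place K F) : ∃ ϖ : F, P.ord ϖ = 1 := by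
  obtain ⟨π, hπ⟩ := IsDiscreteValuationRing.exists_irreducible P.toValuationSubring
  exact ⟨π, P.ord_coe_irreducible hπ⟩

/-- **(R2), uniformiser.** A uniformiser of `v` is a uniformiser of `P`. -/
theorem h6_rat_ord_unif [PerfectField k₁] [Algebra.IsAlgebraic k₁ K] (h : H6Above ι v P)
    (hgen : Subfield.closure (Set.range (algebraMap K F) ∪ Set.range ι) = ⊤)
    (π : v.toValuationSubring) (hπ : Irreducible π) : P.ord (ι (π : F₁)) = 1 := by
  obtain ⟨ϖ, hϖ⟩ := h6_exists_ord_eq_one P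
  have hϖ0 : ϖ ≠ 0 := by
    rintro rfl
    rw [P.ord_zero] at hϖ
    exact zero_ne_one hϖ
  obtain ⟨n, a, b, ha, hb, hva, hvb, e⟩ := h6_rat_structure h hgen π hπ ϖ hϖ0
  have hπ0 := h6_iota_unif_ne_zero (ι := ι) π hπ
  have h1 := congrArg P.ord e
  rw [P.ord_mul hϖ0 (h6_ne_zero_of_val_eq_one hvb),
    P.ord_mul (zpow_ne_zero n hπ0) (h6_ne_zero_of_val_eq_one hva), P.ord_zpow,
    h6_ord_eq_zero_of_val P hva, h6_ord_eq_zero_of_val P hvb, hϖ, add_zero, add_zero] at h1
  have hpos := h6_ord_iota_unif_pos h π hπ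
  have hdvd : P.ord (ι (π : F₁)) ∣ 1 := ⟨n, by rw [h1]; ring⟩
  exact Int.eq_one_of_dvd_one hpos.le hdvd

/-- **(R2)** `P` is unramified over `v`: `ord_P (ι f) = ord_v f`. -/
theorem h6_rat_ord [PerfectField k₁] [Algebra.IsAlgebraic k₁ K] (h : H6Above ι v P)
    (hgen : Subfield.closure (Set.range (algebraMap K F) ∪ Set.range ι) = ⊤) (f : F₁) :
    P.ord (ι f) = v.ord f := by
  rcases eq_or_ne f 0 with rfl | hf
  · simp
  obtain ⟨π, hπ⟩ := IsDiscreteValuationRing.exists_irreducible v.toValuationSubring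
  obtain ⟨u, hu⟩ := v.exists_unit_mul_zpow hf hπ
  have hu0 : ((u : v.toValuationSubring) : F₁) ≠ 0 := by
    intro h0
    rw [h0, zero_mul] at hu
    exact hf hu
  have huinv : ((u : v.toValuationSubring) : F₁)⁻¹ ∈ v.toValuationSubring := by
    have h1 : (((u⁻¹ : (v.toValuationSubring)ˣ) : v.toValuationSubring) : F₁) =
        ((u : v.toValuationSubring) : F₁)⁻¹ := by
      apply eq_inv_of_mul_eq_one_left
      have h2 : ((u⁻¹ : (v.toValuationSubring)ˣ) : v.toValuationSubring) *
          (u : v.toValuationSubring) = 1 := Units.inv_mul u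
      have h3 := congrArg Subtype.val h2
      rwa [MulMemClass.coe_mul, OneMemClass.coe_one] at h3
    rw [← h1]
    exact ((u⁻¹ : (v.toValuationSubring)ˣ) : v.toValuationSubring).2
  have hvu : h6val P (ι ((u : v.toValuationSubring) : F₁)) = 1 :=
    h6_val_eq_one_of_unit h (u : v.toValuationSubring).2 huinv hu0
  have hπ0 := h6_iota_unif_ne_zero (ι := ι) π hπ
  conv_lhs => rw [hu]
  rw [map_mul, map_zpow₀, P.ord_mul (h6_ne_zero_of_val_eq_one hvu) (zpow_ne_zero _ hπ0),
    P.ord_zpow, h6_ord_eq_zero_of_val P hvu, h6_rat_ord_unif h hgen π hπ]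
  ring

/-- **(R1), valuation form.** Every element of `O_P` has a value in `K`. -/
theorem h6_rat_value [PerfectField k₁] [Algebra.IsAlgebraic k₁ K] (h : H6Above ι v P)
    (hgen : Subfield.closure (Set.range (algebraMap K F) ∪ Set.range ι) = ⊤)
    (x : F) (hx : x ∈ P.toValuationSubring) :
    ∃ c : K, h6val P (x - algebraMap K F c) < 1 := by
  rcases P.toValuationSubring.valuation_lt_one_or_eq_one ⟨x, hx⟩ with hlt | heq
  · exact ⟨0, by rw [map_zero, sub_zero]; exact hlt⟩
  · have hx1 : h6val P x = 1 := heq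
    have hx0 : x ≠ 0 := h6_ne_zero_of_val_eq_one hx1
    obtain ⟨π, hπ⟩ := IsDiscreteValuationRing.exists_irreducible v.toValuationSubring
    obtain ⟨n, a, b, ha, hb, hva, hvb, e⟩ := h6_rat_structure h hgen π hπ x hx0
    have hπ0 := h6_iota_unif_ne_zero (ι := ι) π hπ
    have hb0 := h6_ne_zero_of_val_eq_one hvb
    have hn : n = 0 := by
      have h1 := congrArg P.ord e
      rw [P.ord_mul hx0 hb0, P.ord_mul (zpow_ne_zero n hπ0) (h6_ne_zero_of_val_eq_one hva),
        P.ord_zpow, h6_ord_eq_zero_of_val P hva, h6_ord_eq_zero_of_val P hvb,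
        h6_ord_eq_zero_of_val P hx1, h6_rat_ord_unif h hgen π hπ] at h1
      omega
    rw [hn, zpow_zero, one_mul] at e
    obtain ⟨α, -, -, -, -, -, hα, -⟩ := h6_good h π hπ ha
    obtain ⟨β, -, -, -, -, -, hβ, -⟩ := h6_good h π hπ hb
    have hβ0 : β ≠ 0 := h6_value_ne_zero P hβ hvb
    refine ⟨α / β, ?_⟩
    have h2 : x - algebraMap K F (α / β) =
        ((a - algebraMap K F α) - algebraMap K F (α / β) * (b - algebraMap K F β)) * b⁻¹ := by
      have h3 : algebraMap K F (α / β) * algebraMap K F β = algebraMap K F α := by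
        rw [← map_mul, div_mul_cancel₀ _ hβ0]
      have h4 : x = a * b⁻¹ := by rw [← e]; field_simp
      rw [h4]
      field_simp
      linear_combination (-1 : F) * h3
    rw [h2]
    apply h6_val_lt_mul_le P _ (by rw [map_inv₀, hvb, inv_one])
    apply h6_val_sub_lt P hα
    rw [mul_comm]
    exact h6_val_lt_mul_le P hβ (h6_val_const_le P _)

/-- **(R1)** `P` is `K`-rational. -/
theorem h6_rat_residue [PerfectField k₁] [Algebra.IsAlgebraic k₁ K] (h : H6Above ι v P)
    (hgen : Subfield.closure (Set.range (algebraMap K F) ∪ Set.range ι) = ⊤) :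
    Fermat.Agent.S24.RH.ResidueTrivial P := by
  intro u
  obtain ⟨c, hc⟩ := h6_rat_value h hgen (u : F) u.2
  refine ⟨c, ?_⟩
  rw [P.toValuationSubring.valuation_lt_one_iff]
  exact hc

/-- Values on `K[ι O_v]` are determined by the values on `ι O_v`. -/
theorem h6_value_transfer {P' : Place K F} (h : H6Above ι v P) (h' : H6Above ι v P')
    (hsame : ∀ f : F₁, f ∈ v.toValuationSubring → ∀ c : K,
      h6val P (ι f - algebraMap K F c) < 1 → h6val P' (ι f - algebraMap K F c) < 1)
    {s : F} (hs : s ∈ h6S (K := K) ι v) :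
    ∃ c : K, h6val P (s - algebraMap K F c) < 1 ∧ h6val P' (s - algebraMap K F c) < 1 := by
  induction hs using Algebra.adjoin_induction with
  | mem x hx =>
    obtain ⟨f, hf, rfl⟩ := hx
    obtain ⟨c, hc⟩ := h.value f hf
    exact ⟨c, hc, hsame f hf c hc⟩
  | algebraMap r =>
    refine ⟨r, ?_, ?_⟩ <;> · rw [sub_self, map_zero]; exact zero_lt_one
  | add x y hx hy ihx ihy =>
    obtain ⟨c₁, h₁, h₁'⟩ := ihx
    obtain ⟨c₂, h₂, h₂'⟩ := ihy
    have e : x + y - algebraMap K F (c₁ + c₂) =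
        (x - algebraMap K F c₁) + (y - algebraMap K F c₂) := by rw [map_add]; ring
    exact ⟨c₁ + c₂, by rw [e]; exact h6_val_add_lt P h₁ h₂,
      by rw [e]; exact h6_val_add_lt P' h₁' h₂'⟩
  | mul x y hx hy ihx ihy =>
    obtain ⟨c₁, h₁, h₁'⟩ := ihx
    obtain ⟨c₂, h₂, h₂'⟩ := ihy
    have e : x * y - algebraMap K F (c₁ * c₂) =
        (x - algebraMap K F c₁) * y + (y - algebraMap K F c₂) * algebraMap K F c₁ := by
      rw [map_mul]; ring
    refine ⟨c₁ * c₂, ?_, ?_⟩
    · rw [e]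
      exact h6_val_add_lt P
        (h6_val_lt_mul_le P h₁ ((h6_val_le_one_iff P).mpr (h6S_le h hy)))
        (h6_val_lt_mul_le P h₂ (h6_val_const_le P c₁))
    · rw [e]
      exact h6_val_add_lt P'
        (h6_val_lt_mul_le P' h₁' ((h6_val_le_one_iff P').mpr (h6S_le h' hy)))
        (h6_val_lt_mul_le P' h₂' (h6_val_const_le P' c₁))

theorem h6_unit_transfer {P' : Place K F} (h : H6Above ι v P) (h' : H6Above ι v P')
    (hsame : ∀ f : F₁, f ∈ v.toValuationSubring → ∀ c : K,
      h6val P (ι f - algebraMap K F c) < 1 → h6val P' (ι f - algebraMap K F c) < 1)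
    {s : F} (hs : s ∈ h6S (K := K) ι v) (hv : h6val P s = 1) : h6val P' s = 1 := by
  obtain ⟨c, hc, hc'⟩ := h6_value_transfer h h' hsame hs
  exact h6_val_eq_one_of_value P' hc' (h6_value_ne_zero P hc hv)

/-- **(R3)** uniqueness of the place above `v` with given values on `O_v`. -/
theorem h6_rat_unique [PerfectField k₁] [Algebra.IsAlgebraic k₁ K] {P' : Place K F}
    (h : H6Above ι v P) (h' : H6Above ι v P')
    (hgen : Subfield.closure (Set.range (algebraMap K F) ∪ Set.range ι) = ⊤)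
    (hsame : ∀ f : F₁, f ∈ v.toValuationSubring → ∀ c : K,
      h6val P (ι f - algebraMap K F c) < 1 → h6val P' (ι f - algebraMap K F c) < 1) :
    P' = P := by
  obtain ⟨π, hπ⟩ := IsDiscreteValuationRing.exists_irreducible v.toValuationSubring
  have hπ0 := h6_iota_unif_ne_zero (ι := ι) π hπ
  have hπP' : h6val P' (ι (π : F₁)) < 1 := h6_val_iota_unif_lt h' π hπ
  have hπ0' : h6val P' (ι (π : F₁)) ≠ 0 := (Valuation.ne_zero_iff _).mpr hπ0
  -- the valuation at `P'` of `x` in terms of the structure at `P`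
  have key : ∀ x : F, x ≠ 0 → h6val P' x = h6val P' (ι (π : F₁)) ^ (P.ord x) := by
    intro x hx
    obtain ⟨n, a, b, ha, hb, hva, hvb, e⟩ := h6_rat_structure h hgen π hπ x hx
    have hn : P.ord x = n := by
      have h1 := congrArg P.ord e
      rw [P.ord_mul hx (h6_ne_zero_of_val_eq_one hvb),
        P.ord_mul (zpow_ne_zero n hπ0) (h6_ne_zero_of_val_eq_one hva),
        P.ord_zpow, h6_ord_eq_zero_of_val P hva, h6_ord_eq_zero_of_val P hvb,
        h6_rat_ord_unif h hgen π hπ] at h1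
      omega
    have h2 := congrArg (h6val P') e
    rw [map_mul, map_mul, map_zpow₀, h6_unit_transfer h h' hsame ha hva,
      h6_unit_transfer h h' hsame hb hvb, mul_one, mul_one] at h2
    rw [h2, hn]
  apply Place.ext
  apply le_antisymm
  · -- `O_P' ≤ O_P`
    intro x hx
    by_contra hxP
    have hx0 : x ≠ 0 := fun h0 => hxP (h0 ▸ zero_mem _)
    have hneg : P.ord x < 0 := by
      by_contra hnn
      rw [not_lt] at hnn
      exact hxP ((Fermat.Agent.S24.RH.ord_nonneg_iff P).mp hnn)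
    have h1 : h6val P' x ≤ 1 := (h6_val_le_one_iff P').mpr hx
    rw [key x hx0] at h1
    obtain ⟨m, hm⟩ := Int.exists_eq_neg_ofNat hneg.le
    have hm0 : m ≠ 0 := by rintro rfl; simp at hm; omega
    rw [hm, zpow_neg, zpow_natCast] at h1
    have h2 : h6val P' (ι (π : F₁)) ^ m < 1 := pow_lt_one₀ zero_le hπP' hm0
    have h3 : (1 : P'.toValuationSubring.ValueGroup) < (h6val P' (ι (π : F₁)) ^ m)⁻¹ := by
      rw [one_lt_inv₀ (zero_lt_iff.mpr (pow_ne_zero _ hπ0'))]
      exact h2
    exact not_lt.mpr h1 h3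
  · -- `O_P ≤ O_P'`
    intro x hx
    rcases eq_or_ne x 0 with rfl | hx0
    · exact zero_mem _
    have hnn : 0 ≤ P.ord x := (Fermat.Agent.S24.RH.ord_nonneg_iff P).mpr hx
    rw [← h6_val_le_one_iff, key x hx0]
    obtain ⟨m, hm⟩ := Int.eq_ofNat_of_zero_le hnn
    rw [hm, zpow_natCast]
    exact pow_le_one₀ zero_le hπP'.le

end Main

end Fermat.Agent.S37x.Cons.H6
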