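import Mathlib
import Fermat.Agent.S37x.Cons.H6_Rat
import Fermat.Agent.S37x.Red.H1_RatInst
import Fermat.Agent.S37x.Red.H11_ConsPlace
import Fermat.Agent.S18x.E.H29_StConst
import Fermat.Agent.S24.H2_Adapter
import Fermat.Agent.S24.H15_Fin
import Fermat.Agent.S18x.Dict.H22_Ext

/-!
# S37 [RED-M] (RAT-EX) (helper6): places of `F_ℚ̄` become rational over a number field

For a place `P` of `F_L = ℚ̄(j_d : d ∣ M)` there is a number field `K₀ ⊆ ℚ̄` such that for every
intermediate field `K ≥ K₀` the restriction of `P` to `F_K = K(j_d : d ∣ M)` is `K`-rational: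
every `f ∈ F_K` which is regular at `P` has its value at `P` in `K`.

Route (no Galois action): the residue field of `v := P ∩ F_ℚ` is finite over `ℚ`
(`S24.Alg.place_induction` and Zariski's lemma), `K₀` is generated by the values at `P` of lifts
of a finite spanning set, and `h6_rat_value` (in `H6_Rat`) extends the rationality from
`ι (O_v)` to all of `O_{P ∩ F_K}`.

* `h6_ex_values` : abstract, the values of `O_v` at `P` lie in a finite extension `K₀`;
* `h6_finite_residueField` : residue fields of places of function fields (char. 0) are finite;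
* `h6_rat_ex` : (RAT-EX);
* `h6_rat_pack` : the restriction map `res` with `hres`, `hab`, `hrat`, `he`, `huniq` in the
  spelling of `Red.H11.cons_asm`.
-/

set_option autoImplicit false
set_option linter.unusedSectionVars false
set_option linter.style.haveILetI false

open AlgebraicCurve ModularCurve IsLocalRing

noncomputable section

namespace Fermat.Agent.S37x.Cons.H6

section AbsEx

variable {k₁ Ω F₁ E : Type*} [Field k₁] [Field Ω] [Field F₁] [Field E]
  [Algebra k₁ Ω] [Algebra k₁ F₁] [Algebra Ω E]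

/-- Membership in the restricted place. -/
theorem h6_mem_of_comap {ι₀ : F₁ →+* E} {v : Place k₁ F₁} {P : Place Ω E}
    (hPv : P.toValuationSubring.comap ι₀ = v.toValuationSubring) (f : F₁) :
    ι₀ f ∈ P.toValuationSubring ↔ f ∈ v.toValuationSubring := by
  rw [← hPv, ValuationSubring.mem_comap]

/-- The maximal ideal of the restricted place. -/
theorem h6_val_lt_of_comap {ι₀ : F₁ →+* E} {v : Place k₁ F₁} {P : Place Ω E}
    (hPv : P.toValuationSubring.comap ι₀ = v.toValuationSubring) (f : F₁) :
    h6val P (ι₀ f) < 1 ↔ h6val v f < 1 := by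
  show P.toValuationSubring.valuation (ι₀ f) < 1 ↔ v.toValuationSubring.valuation f < 1
  rw [← Fermat.Agent.S37x.Red.H1.h1_comap_val_lt_one, hPv]

/-- **Values in a finite extension.** If the residue field of `v = P ∩ F₁` is finite over `k₁`
and `P` is `Ω`-rational, then the values at `P` of the elements of `O_v` lie in a finite
extension `K₀` of `k₁` inside `Ω`. -/
theorem h6_ex_values [Algebra.IsAlgebraic k₁ Ω] (ι₀ : F₁ →+* E)
    (hι₀ : ∀ c : k₁, ι₀ (algebraMap k₁ F₁ c) = algebraMap Ω E (algebraMap k₁ Ω c))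
    (v : Place k₁ F₁) (P : Place Ω E)
    (hPv : P.toValuationSubring.comap ι₀ = v.toValuationSubring)
    (hres : Fermat.Agent.S24.RH.ResidueTrivial P)
    (hfin : Module.Finite k₁ v.ResidueField) :
    ∃ K₀ : IntermediateField k₁ Ω, FiniteDimensional k₁ K₀ ∧
      ∀ f ∈ v.toValuationSubring, ∃ c ∈ K₀, h6val P (ι₀ f - algebraMap Ω E c) < 1 := by
  classical
  have hval : ∀ u : v.toValuationSubring,
      ∃ c : Ω, h6val P (ι₀ (u : F₁) - algebraMap Ω E c) < 1 := by
    intro u
    have hmem : ι₀ (u : F₁) ∈ P.toValuationSubring := (h6_mem_of_comap hPv _).mpr u.2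
    obtain ⟨c, hc⟩ := hres ⟨ι₀ (u : F₁), hmem⟩
    exact ⟨c, (P.toValuationSubring.valuation_lt_one_iff _).mp hc⟩
  obtain ⟨s, hs⟩ := Module.finite_def.mp hfin
  choose lift hlift using (IsLocalRing.residue_surjective (R := v.toValuationSubring))
  choose val hvalspec using hval
  refine ⟨IntermediateField.adjoin k₁ ((fun b => val (lift b)) '' (s : Set v.ResidueField)),
    ?_, ?_⟩
  · haveI : Finite ((fun b => val (lift b)) '' (s : Set v.ResidueField)) :=
      (s.finite_toSet.image _).to_subtype
    exact IntermediateField.finiteDimensional_adjoin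
      (fun x _ => (Algebra.IsAlgebraic.isAlgebraic x).isIntegral)
  · intro f hf
    have hfs : residue v.toValuationSubring ⟨f, hf⟩ ∈
        Submodule.span k₁ (s : Set v.ResidueField) := by
      rw [hs]
      trivial
    obtain ⟨g, -, hg⟩ := Submodule.mem_span_finset.mp hfs
    refine ⟨∑ b ∈ s, algebraMap k₁ Ω (g b) * val (lift b), ?_, ?_⟩
    · refine sum_mem fun b hb => mul_mem (IntermediateField.algebraMap_mem _ _) ?_
      exact IntermediateField.subset_adjoin _ _ ⟨b, hb, rfl⟩
    · -- the difference `w := f - ∑ g b • lift b` lies in the maximal ideal of `O_v`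
      set w : v.toValuationSubring :=
        ⟨f, hf⟩ - ∑ b ∈ s, algebraMap k₁ v.toValuationSubring (g b) * lift b with hw
      have hw0 : residue v.toValuationSubring w = 0 := by
        rw [hw, map_sub, map_sum, ← hg, sub_eq_zero]
        refine Finset.sum_congr rfl fun b _ => ?_
        rw [map_mul, hlift b, Algebra.smul_def]
        rfl
      have hwm : h6val v (w : F₁) < 1 := by
        have h1 : w ∈ maximalIdeal v.toValuationSubring := (residue_eq_zero_iff w).mp hw0
        exact (v.toValuationSubring.valuation_lt_one_iff w).mp h1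
      have hPw : h6val P (ι₀ (w : F₁)) < 1 := (h6_val_lt_of_comap hPv _).mpr hwm
      have hsum : h6val P (∑ b ∈ s, algebraMap Ω E (algebraMap k₁ Ω (g b)) *
          (ι₀ (lift b : F₁) - algebraMap Ω E (val (lift b)))) < 1 := by
        refine Valuation.map_sum_lt _ one_ne_zero fun b _ => ?_
        rw [mul_comm]
        exact h6_val_lt_mul_le P (hvalspec (lift b)) (h6_val_const_le P _)
      have heq : ι₀ f - algebraMap Ω E (∑ b ∈ s, algebraMap k₁ Ω (g b) * val (lift b)) =
          ι₀ (w : F₁) + ∑ b ∈ s, algebraMap Ω E (algebraMap k₁ Ω (g b)) *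
            (ι₀ (lift b : F₁) - algebraMap Ω E (val (lift b))) := by
        have hwc : (w : F₁) = f - ∑ b ∈ s, algebraMap k₁ F₁ (g b) * (lift b : F₁) := by
          rw [hw]
          push_cast
          rfl
        rw [hwc, map_sub, map_sum, map_sum]
        simp only [map_mul, hι₀, mul_sub, Finset.sum_sub_distrib]
        ring
      rw [heq]
      exact h6_val_add_lt P hPw hsum

end AbsEx

section FiniteResidue

universe u uK

variable {K : Type uK} {F : Type u} [Field K] [CharZero K] [Field F] [Algebra K F]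

/-- **Residue fields are finite.** In a function field of one variable over a field `K` of
characteristic zero the residue field of every place is finite over `K`. -/
theorem h6_finite_residueField (x : F) (hx : Transcendental K x)
    [FiniteDimensional (IntermediateField.adjoin K {x}) F] (v : Place K F) :
    Module.Finite K v.ResidueField := by
  refine Fermat.Agent.S24.Alg.place_induction
    (motive := fun v => Module.Finite K v.ResidueField) ?_ x hx v
  intro B _ _ _ _ _ _ _ P
  haveI : P.asIdeal.IsMaximal := P.isMaximal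
  letI : Field (B ⧸ P.asIdeal) := Ideal.Quotient.field _
  haveI : Algebra.FiniteType K (B ⧸ P.asIdeal) := inferInstance
  haveI : Module.Finite K (B ⧸ P.asIdeal) := finite_of_finite_type_of_isJacobsonRing K _
  exact Module.Finite.equiv (Fermat.Agent.S24.Alg.quotEquivResidue K P (F := F)).toLinearEquiv

end FiniteResidue

section Concrete

local notation "Lbar" => AlgebraicClosure ℚ

open Fermat.Agent.S18x.Dict.H22 Fermat.Agent.S37x.Red.H1

set_option synthInstance.maxHeartbeats 400000
set_option maxHeartbeats 1000000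

section Gen

variable (k₀ : Type) [Field k₀] [CharZero k₀] [Algebra k₀ Lbar] [Algebra.IsAlgebraic k₀ Lbar]
  (M : ℕ) [NeZero M]

/-- The bridges are compatible: `F_{k₀} → F_K → F_L` is `F_{k₀} → F_L`. -/
theorem h6_iotaK_comp (K : IntermediateField k₀ Lbar)
    (f : ↥(modularFunctionFieldFullC k₀ M)) :
    iotaK ↥K M (h1IotaFull k₀ ↥K M f) = iotaK k₀ M f := by
  apply Subtype.ext
  rw [coe_iotaK, coe_h1IotaFull, coe_iotaK, coeffMap_coeffMap]
  exact coeffMap_congr (IsScalarTower.algebraMap_eq k₀ ↥K Lbar).symm _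

theorem h6_isAlgebraic_top (K : IntermediateField k₀ Lbar) : Algebra.IsAlgebraic ↥K Lbar :=
  Algebra.IsAlgebraic.tower_top (K := k₀) ↥K

theorem h6_isAlgebraic_bot (K : IntermediateField k₀ Lbar) : Algebra.IsAlgebraic k₀ ↥K :=
  Algebra.IsAlgebraic.tower_bot k₀ ↥K Lbar

/-- `F_K` is generated by `K` and `F_{k₀}`. -/
theorem h6_hgen_closure (K : IntermediateField k₀ Lbar) :
    Subfield.closure (Set.range (algebraMap ↥K ↥(modularFunctionFieldFullC ↥K M)) ∪
      Set.range (h1IotaFull k₀ ↥K M)) = ⊤ := by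
  haveI := h6_isAlgebraic_bot k₀ K
  rw [eq_top_iff]
  intro z _
  obtain ⟨n, c, g, rfl⟩ := h1_hgen_full k₀ ↥K M z
  refine sum_mem fun i _ => mul_mem ?_ ?_
  · exact Subfield.subset_closure (Or.inl ⟨c i, rfl⟩)
  · exact Subfield.subset_closure (Or.inr ⟨g i, rfl⟩)

/-- **(RAT-EX), valuation form, general base field `k₀ ⊆ ℚ̄`.** -/
theorem h6_rat_ex_val_gen (P : Place Lbar ↥(modularFunctionFieldBar M)) :
    ∃ K₀ : IntermediateField k₀ Lbar, FiniteDimensional k₀ K₀ ∧
      ∀ K : IntermediateField k₀ Lbar, K₀ ≤ K →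
        ∀ vK : Place ↥K ↥(modularFunctionFieldFullC ↥K M),
          P.toValuationSubring.comap (iotaK ↥K M) = vK.toValuationSubring →
          ∀ f ∈ vK.toValuationSubring,
            ∃ c : ↥K, vK.toValuationSubring.valuation
              (f - algebraMap ↥K ↥(modularFunctionFieldFullC ↥K M) c) < 1 := by
  haveI : Algebra.IsIntegral k₀ Lbar := Algebra.IsAlgebraic.isIntegral
  -- the restriction to `F_{k₀}`
  obtain ⟨v, hv, -⟩ := h1_exists_restrict (iotaK k₀ M) (iotaK_algebraMap k₀ M)
    (h1_hgen_iotaK k₀ M) P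
  -- its residue field is finite
  haveI := Fermat.Agent.S18x.E.H29.finDimC (k := k₀) M
  have hfin : Module.Finite k₀ v.ResidueField :=
    h6_finite_residueField (Fermat.Agent.S28.Asm.jbFull k₀ M)
      (Fermat.Agent.S18x.E.H29.transcendental_jbFull k₀ M) v
  -- `P` is rational
  haveI := finiteDimensional_iota_jK k₀ M
  have hres : Fermat.Agent.S24.RH.ResidueTrivial P :=
    Fermat.Agent.S24.RH.residueTrivial_place (iotaK k₀ M (jK k₀ M)) P
  obtain ⟨K₀, hK₀, hvals⟩ := h6_ex_values (iotaK k₀ M) (iotaK_algebraMap k₀ M) v P hv hres hfin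
  refine ⟨K₀, hK₀, fun K hK vK hvK f hf => ?_⟩
  haveI := h6_isAlgebraic_bot k₀ K
  have hab : H6Above (h1IotaFull k₀ ↥K M) v vK :=
    { compat := h1IotaFull_algebraMap k₀ ↥K M
      mem_iff := fun g => by
        rw [← h6_mem_of_comap hvK, h6_iotaK_comp, h6_mem_of_comap hv]
      value := fun g hg => by
        obtain ⟨c, hc, hlt⟩ := hvals g hg
        refine ⟨⟨c, hK hc⟩, ?_⟩
        rw [← h6_val_lt_of_comap hvK, map_sub, h6_iotaK_comp, iotaK_algebraMap]
        exact hlt }
  exact h6_rat_value hab (h6_hgen_closure k₀ M K) f hf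

end Gen

variable (M : ℕ) [NeZero M]

theorem h6_isAlgebraic_bar : Algebra.IsAlgebraic ℚ Lbar := AlgebraicClosure.isAlgebraic ℚ

/-- **Restriction of a place** of `F_L` to `F_K`. -/
theorem h6_exists_res (K : IntermediateField ℚ Lbar)
    (P : Place Lbar ↥(modularFunctionFieldBar M)) :
    ∃ v : Place ↥K ↥(modularFunctionFieldFullC ↥K M),
      P.toValuationSubring.comap (iotaK ↥K M) = v.toValuationSubring := by
  haveI := h6_isAlgebraic_bar
  haveI := h6_isAlgebraic_top ℚ K
  obtain ⟨v, hv, -⟩ := h1_exists_restrict (iotaK ↥K M) (iotaK_algebraMap ↥K M)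
    (h1_hgen_iotaK ↥K M) P
  exact ⟨v, hv⟩

/-- The restriction `P ∩ F_K` of a place of `F_L`. -/
def h6Res (K : IntermediateField ℚ Lbar) (P : Place Lbar ↥(modularFunctionFieldBar M)) :
    Place ↥K ↥(modularFunctionFieldFullC ↥K M) :=
  Classical.choose (h6_exists_res M K P)

theorem h6Res_spec (K : IntermediateField ℚ Lbar) (P : Place Lbar ↥(modularFunctionFieldBar M)) :
    P.toValuationSubring.comap (iotaK ↥K M) = (h6Res M K P).toValuationSubring :=
  Classical.choose_spec (h6_exists_res M K P)

/-- The restriction is determined by its valuation ring. -/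
theorem h6Res_eq (K : IntermediateField ℚ Lbar) (P : Place Lbar ↥(modularFunctionFieldBar M))
    (v : Place ↥K ↥(modularFunctionFieldFullC ↥K M))
    (hv : P.toValuationSubring.comap (iotaK ↥K M) = v.toValuationSubring) : h6Res M K P = v :=
  Place.ext ((h6Res_spec M K P).symm.trans hv)

/-- Every place of `F_K` is a restriction. -/
theorem h6Res_surjective (K : IntermediateField ℚ Lbar)
    (v : Place ↥K ↥(modularFunctionFieldFullC ↥K M)) : ∃ P, h6Res M K P = v := by
  obtain ⟨P, h1, h2, -⟩ := exists_place_above_intermediate K M v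
  exact ⟨P, h6Res_eq M K P v (h1_comap_eq_of_above (iotaK ↥K M) _ _ h1 h2)⟩

/-- **(RAT-EX), valuation form.** For every place `P` of `F_L` there is a number field `K₀`
such that for all `K ≥ K₀` the restriction of `P` to `F_K` is `K`-rational. -/
theorem h6_rat_ex_val (P : Place Lbar ↥(modularFunctionFieldBar M)) :
    ∃ K₀ : IntermediateField ℚ Lbar, FiniteDimensional ℚ K₀ ∧
      ∀ K : IntermediateField ℚ Lbar, K₀ ≤ K →
        ∀ vK : Place ↥K ↥(modularFunctionFieldFullC ↥K M),
          P.toValuationSubring.comap (iotaK ↥K M) = vK.toValuationSubring →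
          ∀ f ∈ vK.toValuationSubring,
            ∃ c : ↥K, vK.toValuationSubring.valuation
              (f - algebraMap ↥K ↥(modularFunctionFieldFullC ↥K M) c) < 1 :=
  haveI := h6_isAlgebraic_bar
  h6_rat_ex_val_gen ℚ M P

/-- **(RAT-EX).** For every place `P` of `F_L` there is a number field `K₀` such that for all
`K ≥ K₀` every `f ∈ F_K` which is regular at `P` has its value at `P` in `K`. -/
theorem h6_rat_ex (P : Place Lbar ↥(modularFunctionFieldBar M)) :
    ∃ K₀ : IntermediateField ℚ Lbar, FiniteDimensional ℚ K₀ ∧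
      ∀ K : IntermediateField ℚ Lbar, K₀ ≤ K →
        ∀ f : ↥(modularFunctionFieldFullC ↥K M), 0 ≤ P.ord (iotaK ↥K M f) →
          ∃ c : ↥K, iotaK ↥K M f = algebraMap Lbar ↥(modularFunctionFieldBar M) (c : Lbar) ∨
            0 < P.ord (iotaK ↥K M f -
              algebraMap Lbar ↥(modularFunctionFieldBar M) (c : Lbar)) := by
  obtain ⟨K₀, hK₀, h⟩ := h6_rat_ex_val M P
  refine ⟨K₀, hK₀, fun K hK f hf => ?_⟩
  have hvK := h6Res_spec M K P
  have hmem : f ∈ (h6Res M K P).toValuationSubring :=
    (h6_mem_of_comap hvK f).mp ((Fermat.Agent.S24.RH.ord_nonneg_iff P).mp hf)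
  obtain ⟨c, hc⟩ := h K hK _ hvK f hmem
  refine ⟨c, ?_⟩
  have h2 : h6val P (iotaK ↥K M f -
      algebraMap Lbar ↥(modularFunctionFieldBar M) (c : Lbar)) < 1 := by
    have h3 := (h6_val_lt_of_comap hvK _).mpr hc
    rw [map_sub, iotaK_algebraMap] at h3
    exact h3
  by_cases h0 : iotaK ↥K M f - algebraMap Lbar ↥(modularFunctionFieldBar M) (c : Lbar) = 0
  · exact Or.inl (sub_eq_zero.mp h0)
  · exact Or.inr (h6_ord_pos_of_val P h2 h0)

/-- (RAT-EX) for finitely many places at once. -/
theorem h6_rat_ex_finset (S : Finset (Place Lbar ↥(modularFunctionFieldBar M))) :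
    ∃ K₀ : IntermediateField ℚ Lbar, FiniteDimensional ℚ K₀ ∧
      ∀ K : IntermediateField ℚ Lbar, K₀ ≤ K → ∀ P ∈ S,
        ∀ vK : Place ↥K ↥(modularFunctionFieldFullC ↥K M),
          P.toValuationSubring.comap (iotaK ↥K M) = vK.toValuationSubring →
          ∀ f ∈ vK.toValuationSubring,
            ∃ c : ↥K, vK.toValuationSubring.valuation
              (f - algebraMap ↥K ↥(modularFunctionFieldFullC ↥K M) c) < 1 := by
  classical
  induction S using Finset.induction_on with
  | empty =>
    exact ⟨⊥, inferInstance, fun K _ P hP => absurd hP (Finset.notMem_empty P)⟩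
  | insert P S _ ih =>
    obtain ⟨K₁, hK₁, h₁⟩ := ih
    obtain ⟨K₂, hK₂, h₂⟩ := h6_rat_ex_val M P
    refine ⟨K₁ ⊔ K₂, IntermediateField.finiteDimensional_sup K₁ K₂, fun K hK Q hQ => ?_⟩
    rcases Finset.mem_insert.mp hQ with rfl | hQ
    · exact h₂ K (le_trans le_sup_right hK)
    · exact h₁ K (le_trans le_sup_left hK) Q hQ

/-- **The pack for `cons_asm`.** For finitely many places `S` of `F_L` there is a number field
`K₀` such that for all `K ≥ K₀` the restriction map `res = h6Res M K` satisfies `hres`, `hab`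
and, at the places of `S`: `hrat`, `he` (`e = 1`), `huniq`. -/
theorem h6_rat_pack (S : Finset (Place Lbar ↥(modularFunctionFieldBar M))) :
    ∃ K₀ : IntermediateField ℚ Lbar, FiniteDimensional ℚ K₀ ∧
      ∀ K : IntermediateField ℚ Lbar, K₀ ≤ K →
        (∀ P, P.toValuationSubring.comap (iotaK ↥K M) = (h6Res M K P).toValuationSubring) ∧
        (∀ v : Place ↥K ↥(modularFunctionFieldFullC ↥K M), ∃ P, h6Res M K P = v) ∧
        ∀ P ∈ S, Fermat.Agent.S37x.Red.H11.Rational (h6Res M K P) ∧
          (∀ f : ↥(modularFunctionFieldFullC ↥K M),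
            P.ord (iotaK ↥K M f) = (h6Res M K P).ord f) ∧
          ∀ P', h6Res M K P' = h6Res M K P → P' = P := by
  obtain ⟨K₀, hK₀, h⟩ := h6_rat_ex_finset M S
  refine ⟨K₀, hK₀, fun K hK => ⟨h6Res_spec M K, h6Res_surjective M K, fun P hP => ?_⟩⟩
  haveI := h6_isAlgebraic_bar
  haveI := h6_isAlgebraic_top ℚ K
  have hrat := h1_hrat_to_ord (h6Res M K P) (h K hK P hP _ (h6Res_spec M K P))
  refine ⟨hrat, fun f => ?_, fun P' hP' => ?_⟩
  · exact h1_ord_eq' (iotaK ↥K M) (iotaK_algebraMap ↥K M) (h1_hgen_iotaK ↥K M) P _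
      (h6Res_spec M K P) hrat f
  · exact (h1_place_unique' (iotaK ↥K M) (iotaK_algebraMap ↥K M) (h1_hgen_iotaK ↥K M) P P' _
      (h6Res_spec M K P) ((h6Res_spec M K P').trans (by rw [hP'])) hrat).symm

end Concrete

end Fermat.Agent.S37x.Cons.H6
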